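/-
S48 (Deligne-Serre), block BB (mod `ℓ` Galois modules of weight two for `Γ₁(M)`).
BASE DEFINITIONS shared by all the sub-blocks (P, U, E, T, M, NV, KL, H, TOP).  Owner: helper48.
Definitions only.

* `FB F₀`        : the base change to `ℚ̄` of a field `F₀ ⊆ ℚ((q))` (as a type);
* `IsLvl F₀ H N` : "`F₀` is the rational model of the function field of `H \ ℍ`": every element of
                   `F₀` is the `q`-expansion of an element of `LL N` (GAL/Mult/Adm: fractions of
                   admissible functions, expansions in `t = q^(1/N)`), and `H` is exactly the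
                   stabiliser of these elements;
* `F1Q M r`      : the rational model for `H1 M r = ±Γ₁(M) ∩ Γ₀(M r)`, generated by the `j(q^d)`, `d ∣ M r`,
                   and by the functions `u_a = t_a ^ 4 / Δ`, `t_a` the weight three Eisenstein series
                   of `S48/IS` (generators proposed by helper89).
-/
import Fermat.Agent.GAL.Mult.FixedField
import Fermat.Agent.S48.IS.Defs

set_option autoImplicit false

noncomputable section

namespace Fermat.Agent.S48.BB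

open ModularCurve CongruenceSubgroup
open Fermat.Agent.S24 Fermat.Agent.S24.B Fermat.Agent.GAL.Mult
open scoped MatrixGroups

/-- The base change to `ℚ̄` of a subfield of `ℚ((q))`, as a type. -/
abbrev FB (F₀ : IntermediateField ℚ (LaurentSeries ℚ)) : Type := ↥(laurentBaseChange Kbar F₀)

/-- `g ∈ LL N` has the `q`-expansion `f ∈ ℚ((q))` (i.e. the `t`-expansion `f(t ^ N)`). -/
def Realises (N : ℕ) [NeZero N] (g : LL N) (f : LaurentSeries ℚ) : Prop :=
  texpLL N g = qExpand Kbar N (coeffEmb Kbar f)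

/-- `F₀ ⊆ ℚ((q))` is the rational model (rational `q`-expansions at `∞`) of the function field of
`H \ ℍ`, all the functions being of `t`-level `N`. -/
structure IsLvl (F₀ : IntermediateField ℚ (LaurentSeries ℚ)) (H : Subgroup SL(2, ℤ)) (N : ℕ)
    [NeZero N] : Prop where
  j_mem : jq ∈ F₀
  fg : ∃ s : Finset (LaurentSeries ℚ), F₀ = IntermediateField.adjoin ℚ (s : Set (LaurentSeries ℚ))
  real : ∀ f ∈ F₀, ∃ g : LL N, Realises N g f
  inv : ∀ f ∈ F₀, ∀ g : LL N, Realises N g f → ∀ γ ∈ H, γ • g = g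
  stab : ∀ γ : SL(2, ℤ), (∀ f ∈ F₀, ∀ g : LL N, Realises N g f → γ • g = g) → γ ∈ H

/-- The `q`-expansion `∑_n cB M a n qⁿ`, `cB M a n = ∑_{c ∣ n, c ≡ a} (n/c)² - ∑_{c ∣ n, c ≡ -a} (n/c)²`,
of the weight three Eisenstein series `t_a = C⁻¹ ∑_{c ≡ a (M), d ∈ ℤ} (c τ + d)⁻³`,
`C = (-2πi)³ / 2`, on `Γ₁(M)` (see `S48/IS`: `eisSet (colSet M a) 3`, `hasSum_eisSet_colSet`). -/
def tP (M : ℕ) (a : ZMod M) : PowerSeries ℚ := PowerSeries.mk fun n => (IS.cB M a n : ℚ)

/-- The `q`-expansion of `q / Δ`. -/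
def etaInvQ : PowerSeries ℚ := dedekindEtaUnitInv.map (Int.castRingHom ℚ)

/-- The `q`-expansion of the modular function `u_a = t_a ^ 4 / Δ` on `±Γ₁(M)`
(integer coefficients; `u_a ∘ γ = u_{a γ₀₀}` for `γ ∈ Γ₀(M)`; `u_1 = q³ + ...`). -/
def uQ (M : ℕ) (a : ZMod M) : LaurentSeries ℚ :=
  HahnSeries.single (-1 : ℤ) 1 * HahnSeries.ofPowerSeries ℤ ℚ (tP M a ^ 4 * etaInvQ)

/-- The rational model of the function field of `±Γ₁(M) ∩ Γ₀(M r)`. -/
def F1Q (M r : ℕ) [NeZero (M * r)] : IntermediateField ℚ (LaurentSeries ℚ) :=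
  IntermediateField.adjoin ℚ (Set.range (uQ M)) ⊔ modularFunctionFieldFull (M * r)

/-- `±Γ₁(M)`. -/
def pmGamma1 (M : ℕ) : Subgroup SL(2, ℤ) := Gamma1 M ⊔ Subgroup.zpowers (-1 : SL(2, ℤ))

/-- `±Γ₁(M) ∩ Γ₀(M r)`. -/
def H1 (M r : ℕ) : Subgroup SL(2, ℤ) := pmGamma1 M ⊓ Gamma0 (M * r)

/-- **Deliverable of the blocks P + U.** -/
def LvlStatement : Prop :=
  ∀ (M r : ℕ) [NeZero (M * r)], IsLvl (F1Q M r) (H1 M r) (M * r)

end Fermat.Agent.S48.BB

end
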