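/-
S48 (Deligne-Serre).  ASSEMBLY OF EVERYTHING EXCEPT BLOCK BB: the frozen statement of S48 follows
from the single open node `ResidualWeightTwo5`.  Owner: helper48.
-/
import Fermat.Agent.S48.Wire
import Fermat.Agent.S48.GaloisHalf
import Fermat.Agent.S48.ModularHalf
import Fermat.Agent.S48.GalBasic
import Fermat.Agent.S48.DetData
import Fermat.Agent.S48.Semisimplify
import Fermat.Agent.S48.ResidualRep
import Fermat.Agent.S48.ImageBound
import Fermat.Agent.S48.RootsOfUnity
import Fermat.Agent.S48.Lift
import Fermat.Agent.S48.TraceDetermined
import Fermat.Agent.S48.ChebWeighted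
import Fermat.Agent.S48.Irred
import Fermat.Agent.S48.BoundedImage
import Fermat.Agent.S48.CH.Final
import Fermat.Agent.S48.ConjForm
import Fermat.Agent.S48.CoeffField
import Fermat.Agent.S48.RationalModel
import Fermat.Agent.S48.ConjRankin
import Fermat.Agent.S48.FinAbstract
import Fermat.Agent.S48.Teichmuller
import Fermat.Agent.S48.ProductForm
import Fermat.Agent.S48.A.Main
import Fermat.Agent.S48.B.Main
import Fermat.Agent.S48.IS.Final
import Fermat.Agent.S48.BB.ResNode5

set_option autoImplicit false

namespace Fermat.Agent.S48

theorem galoisHalf : GaloisHalf :=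
  galoisHalf_of_nodes finiteRange existsDetData existsReduction testInjective
    (residualRep semisimplify) (imageBound CH.chebotarevSym boundedImage densLe finiteRange)
    (rootsOfUnityNode killLemma) liftNode traceDetermined
    (irredNode (chebotarevWeighted CH.chebotarevSym) reducibleSplit finiteRange)

theorem modularHalf_of_BB (hBB : ResidualWeightTwo5) : ModularHalf :=
  modularHalf_of_nodes nebentypus
    (rationalModel (conjForm IS.integralStructure) (coeffFG IS.integralStructure) coeffField
      projection)
    (conjRankin (conjForm IS.integralStructure) projection) finAbstract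
    (resNode5 nebentypus eisensteinOne teichmuller productForm hBB)

end Fermat.Agent.S48
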